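import Fermat.Agent.S19.ND.Main
import Fermat.Agent.S19.G.Main
import Fermat.Agent.S19.B.Main

/-!
# S32/GOODJ : good characters separate the `ℓ`-power torsion points of `J₀(N)`, `ℓ ∤ N`
(from the layers W, ND, G, B of S19; this is also the hypothesis `hχ` of `S19.flat_of_chars` for S19 itself)
-/

set_option autoImplicit false

noncomputable section

namespace Fermat.Agent.S32

open AlgebraicCurve ModularCurve Fermat.Agent.S37 Fermat.Agent.S27 Fermat.Agent.S24 Fermat.Agent.S19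

theorem goodJAux_tr_mul {K F : Type*} [Field K] [Field F] [Algebra K F] {n : ℕ}
    (g g' : SemilinearAut K F) (y : TD K F n) : y.tr (g * g') = (y.tr g').tr g := by
  have hD : (y.tr (g * g')).D = ((y.tr g').tr g).D := mul_smul g g' y.D
  have hu : (y.tr (g * g')).u = ((y.tr g').tr g).u := mul_smul g g' y.u
  cases h1 : y.tr (g * g')
  cases h2 : (y.tr g').tr g
  rw [h1, h2] at hD hu
  simp only at hD hu
  subst hD hu
  rfl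

theorem goodJ_level (M : ℕ) [NeZero M] {r : ℕ} (hr : r = 2 ∨ r = 3) (hrM : r ∣ M) (ℓ : ℕ)
    [Fact ℓ.Prime] (hℓM : ¬ ℓ ∣ M) (k : ℕ) (A : ValuationSubring Qb) (hA : A.LiesOverPrime ℓ)
    (x : JZero M) (hx : (ℓ ^ k) • x = 0) (hx0 : x ≠ 0) :
    ∃ χ : JZero M → Qb,
      (∀ a b, (ℓ ^ k) • a = 0 → (ℓ ^ k) • b = 0 → χ (a + b) = χ a * χ b) ∧ (∀ a, χ a ≠ 0) ∧
      χ x ≠ 1 ∧ ∀ (ρ₀ : GQ) (a : JZero M), (ℓ ^ k) • a = 0 →
        GCfun A (fun ρ => (ρ * ρ₀) (χ ((ρ * ρ₀)⁻¹ • a))) := by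
  have hℓ : ℓ.Prime := Fact.out
  have hn : 0 < ℓ ^ k := pow_pos hℓ.pos k
  have hF := isFF_FN M
  obtain ⟨y, hy⟩ := exists_chi_ne_one hF ℓ k x hx hx0
  refine ⟨chi y, fun a b ha hb => chi_add hF hn y a b ha hb, fun a => chi_ne_zero hF hn y a, hy,
    fun ρ₀ a ha => ?_⟩
  refine (gc_chi M hr hrM hℓ hℓM A hA hn
    (y.tr (arithmeticGalois (modularFunctionFieldFull M) ρ₀)) a ha).congr (fun ρ => ?_)
  rw [← goodJAux_tr_mul, ← map_mul]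
  have hx' : (ℓ ^ k) • ((ρ * ρ₀)⁻¹ • a) = 0 := by
    have e := map_nsmul (DistribSMul.toAddMonoidHom (JZero M) (ρ * ρ₀)⁻¹) (ℓ ^ k) a
    have e' : (ρ * ρ₀)⁻¹ • ((ℓ ^ k) • a) = (ℓ ^ k) • ((ρ * ρ₀)⁻¹ • a) := e
    rw [← e', ha]
    exact smul_zero (A := JZero M) (ρ * ρ₀)⁻¹
  have h1 := chi_tr hF hn (arithmeticGalois (modularFunctionFieldFull M) (ρ * ρ₀)) y
    ((ρ * ρ₀)⁻¹ • a) hx'
  have h2 : arithmeticGalois (modularFunctionFieldFull M) (ρ * ρ₀) • ((ρ * ρ₀)⁻¹ • a) = a :=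
    smul_inv_smul (ρ * ρ₀) a
  rw [h2] at h1
  exact h1

theorem exists_good_char (N : ℕ) [NeZero N] (ℓ : ℕ) [Fact ℓ.Prime] (hℓN : ¬ ℓ ∣ N) (k : ℕ)
    (A : ValuationSubring Qb) (hA : A.LiesOverPrime ℓ)
    (x : JZero N) (hx : (ℓ ^ k) • x = 0) (hx0 : x ≠ 0) :
    ∃ χ : JZero N → Qb,
      (∀ a b, (ℓ ^ k) • a = 0 → (ℓ ^ k) • b = 0 → χ (a + b) = χ a * χ b) ∧ (∀ a, χ a ≠ 0) ∧
      χ x ≠ 1 ∧ ∀ (ρ₀ : GQ) (a : JZero N), (ℓ ^ k) • a = 0 →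
        GCfun A (fun ρ => (ρ * ρ₀) (χ ((ρ * ρ₀)⁻¹ • a))) := by
  have hℓ : ℓ.Prime := Fact.out
  obtain ⟨r, hr, hrp, hrℓ⟩ : ∃ r : ℕ, (r = 2 ∨ r = 3) ∧ r.Prime ∧ ℓ ≠ r := by
    by_cases h2 : ℓ = 2
    · exact ⟨3, Or.inr rfl, Nat.prime_three, by omega⟩
    · exact ⟨2, Or.inl rfl, Nat.prime_two, h2⟩
  by_cases hrN : r ∣ N
  · exact goodJ_level N hr hrN ℓ hℓN k A hA x hx hx0
  · have : NeZero (N * r) := ⟨mul_ne_zero (NeZero.ne N) hrp.ne_zero⟩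
    have hℓM : ¬ ℓ ∣ N * r := by
      intro h
      rcases (Nat.Prime.dvd_mul hℓ).mp h with h | h
      · exact hℓN h
      · exact hrℓ ((Nat.prime_dvd_prime_iff_eq hℓ hrp).mp h)
    obtain ⟨b, hb1, hb2⟩ := exists_beta N r hrp hrN
    have hbx : (ℓ ^ k) • b x = 0 := by rw [← map_nsmul, hx, map_zero]
    have hbx0 : b x ≠ 0 := fun h => hx0 (hb2 ℓ hℓ hrℓ k x hx h)
    obtain ⟨χ, h1, h2, h3, h4⟩ := goodJ_level (N * r) hr (Dvd.intro_left N rfl) ℓ hℓM k A hA (b x)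
      hbx hbx0
    refine ⟨fun a => χ (b a), fun a a' ha ha' => ?_, fun a => h2 _, h3, fun ρ₀ a ha => ?_⟩
    · show χ (b (a + a')) = _
      rw [map_add]
      exact h1 _ _ (by rw [← map_nsmul, ha, map_zero]) (by rw [← map_nsmul, ha', map_zero])
    · refine (h4 ρ₀ (b a) (by rw [← map_nsmul, ha, map_zero])).congr (fun ρ => ?_)
      show _ = (ρ * ρ₀) (χ (b ((ρ * ρ₀)⁻¹ • a)))
      rw [hb1]

end Fermat.Agent.S32
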