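import Fermat.Agent.S32.Lam
import Fermat.Agent.S32.GoodJ
import Fermat.Agent.S31.Raw
import Fermat.Agent.S29.Wiring

/-!
# S32/GOODW : good characters on the Kummer classes `W1 ⊆ WW N (p ^ m)`

`lamW : WW N n → JZero N`, `[u] ↦ cls (div u / n)`, is additive, injective and Galois equivariant on the classes of elements `u` with `n ∣ div u`;
all elements of `W1` are such classes.  Pull back the good characters of `S32.exists_good_char`.
-/

set_option autoImplicit false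
set_option linter.unusedSectionVars false

noncomputable section

namespace Fermat.Agent.S32

open AlgebraicCurve ModularCurve Fermat.Agent.S37 Fermat.Agent.S24 Fermat.Agent.S29
open Fermat.Agent.ES.Alg
open Fermat.Agent.S31 (W1)

variable {N n : ℕ} [NeZero N]

/-- classes of elements whose divisor is divisible by `n` -/
def IsPW (w : WW N n) : Prop := ∃ (u : FN N) (hu0 : u ≠ 0), PDiv Kb (FN N) n u ∧ w = cl u hu0

/-- a representative -/
def repW (w : WW N n) : (FN N)ˣ := (cls_surjective w).choose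

theorem cls_repW (w : WW N n) : cls (repW w) = w := (cls_surjective w).choose_spec

/-- `[u] ↦ cls (div u / n)` -/
def lamW (w : WW N n) : JZero N := lam (isFF_FN N) n ((repW w : (FN N)ˣ) : FN N)

theorem lamW_cl (hn : 0 < n) {u : FN N} (hu0 : u ≠ 0) (hu : PDiv Kb (FN N) n u) :
    lamW (cl u hu0 : WW N n) = lam (isFF_FN N) n u := by
  set v := repW (cl u hu0 : WW N n) with hv
  have h1 : (cls v : WW N n) = cls (Units.mk0 u hu0) := cls_repW _
  have h2 : (cls (v * (Units.mk0 u hu0)⁻¹) : WW N n) = 0 := by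
    have : (cls (v * (Units.mk0 u hu0)⁻¹) : WW N n) = cls v + -cls (Units.mk0 u hu0) := rfl
    rw [this, h1]
    exact add_neg_cancel (cls (Units.mk0 u hu0) : WW N n)
  obtain ⟨r, hr⟩ := (cls_eq_zero_iff _).mp h2
  have h3 : ((v : (FN N)ˣ) : FN N) = u * ((r : (FN N)ˣ) : FN N) ^ n := by
    have : v = Units.mk0 u hu0 * r ^ n := by rw [hr, mul_comm v, mul_inv_cancel_left]
    rw [this]; simp
  show lam (isFF_FN N) n ((v : (FN N)ˣ) : FN N) = _
  rw [h3, lam_mul (isFF_FN N) hn hu (pdiv_pow_self r.ne_zero), lam_pow_self (isFF_FN N) hn r.ne_zero,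
    add_zero]

theorem IsPW.add {w w' : WW N n} (h : IsPW w) (h' : IsPW w') : IsPW (w + w') := by
  obtain ⟨u, hu0, hu, rfl⟩ := h
  obtain ⟨u', hu0', hu', rfl⟩ := h'
  exact ⟨u * u', mul_ne_zero hu0 hu0', hu.mul hu', (cl_mul hu0 hu0').symm⟩

theorem lamW_add (hn : 0 < n) {w w' : WW N n} (h : IsPW w) (h' : IsPW w') :
    lamW (w + w') = lamW w + lamW w' := by
  obtain ⟨u, hu0, hu, rfl⟩ := h
  obtain ⟨u', hu0', hu', rfl⟩ := h'
  rw [← cl_mul hu0 hu0', lamW_cl hn _ (hu.mul hu'), lamW_cl hn _ hu, lamW_cl hn _ hu',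
    lam_mul (isFF_FN N) hn hu hu']

theorem IsPW.act {w : WW N n} (h : IsPW w) (g : GQ) : IsPW (actW N n g w) := by
  obtain ⟨u, hu0, hu, rfl⟩ := h
  exact ⟨gal N g u, _, PDiv.gal hu g, actW_cl g hu0⟩

theorem lamW_act (hn : 0 < n) {w : WW N n} (h : IsPW w) (g : GQ) :
    lamW (actW N n g w) = g • lamW w := by
  obtain ⟨u, hu0, hu, rfl⟩ := h
  rw [actW_cl g hu0, lamW_cl hn _ (PDiv.gal hu g), lamW_cl hn _ hu]
  exact lam_smul (isFF_FN N) hn (arithmeticGalois (modularFunctionFieldFull N) g) hu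

theorem nsmul_lamW (hn : 0 < n) {w : WW N n} (h : IsPW w) : n • lamW w = 0 := by
  obtain ⟨u, hu0, hu, rfl⟩ := h
  rw [lamW_cl hn _ hu]
  exact nsmul_lam (isFF_FN N) hn hu

theorem eq_zero_of_lamW (hn : 0 < n) {w : WW N n} (h : IsPW w) (h0 : lamW w = 0) : w = 0 := by
  obtain ⟨u, hu0, hu, rfl⟩ := h
  rw [lamW_cl hn _ hu] at h0
  obtain ⟨r, hr⟩ := exists_pow_of_lam_eq_zero (isFF_FN N) hn hu h0
  have hr0 : r ≠ 0 := by
    rintro rfl
    rw [zero_pow hn.ne'] at hr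
    exact hu0 hr
  have : Units.mk0 u hu0 = (Units.mk0 r hr0) ^ n := Units.ext hr
  rw [cl, this, cls_pow_self]

theorem isPW_of_mem_W1 (hn : n ≠ 0) (hD : Desc N n) {w : WW N n}
    (hw : w ∈ W1 (actW N n) (Theta hn hD : XN N →+ WW N n)) : IsPW w := by
  induction hw using AddSubgroup.closure_induction with
  | mem x hx =>
    obtain ⟨g, c, rfl⟩ := hx
    exact IsPW.act ⟨uK hD c, uK_ne_zero hD c, pdiv_of_isKummer N n c c.2 _ (isKummer_uK hD c),
      Theta_apply hn hD c⟩ g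
  | zero =>
    refine ⟨1, one_ne_zero, PDiv.one, ?_⟩
    have : Units.mk0 (1 : FN N) one_ne_zero = 1 := Units.ext rfl
    rw [cl, this]; rfl
  | add x y _ _ hx hy => exact hx.add hy
  | neg x _ hx =>
    obtain ⟨u, hu0, hu, rfl⟩ := hx
    refine ⟨u⁻¹, inv_ne_zero hu0, hu.inv, ?_⟩
    have : Units.mk0 u⁻¹ (inv_ne_zero hu0) = (Units.mk0 u hu0)⁻¹ := Units.ext rfl
    rw [cl, cl, this]; rfl

theorem goodW {p : ℕ} [Fact p.Prime] (hpN : ¬ p ∣ N) (m : ℕ) (hnp : n = p ^ m) (hm : n ≠ 0)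
    (hD : Desc N n) (A : ValuationSubring Qb) (hA : A.LiesOverPrime p)
    (w : WW N n) (hw : w ∈ W1 (actW N n) (Theta hm hD : XN N →+ WW N n)) (hw0 : w ≠ 0) :
    ∃ χ : WW N n → Qb,
      (∀ x ∈ W1 (actW N n) (Theta hm hD : XN N →+ WW N n),
        ∀ y ∈ W1 (actW N n) (Theta hm hD : XN N →+ WW N n),
        χ (x + y) = χ x * χ y) ∧ (∀ x, χ x ≠ 0) ∧ χ w ≠ 1 ∧
      ∀ (ρ₀ : GQ), ∀ x ∈ W1 (actW N n) (Theta hm hD : XN N →+ WW N n),
        S19.GCfun A (fun ρ => (ρ * ρ₀) (χ (actW N n (ρ * ρ₀)⁻¹ x))) := by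
  have hn : 0 < n := Nat.pos_of_ne_zero hm
  have hP : ∀ x : WW N n, x ∈ W1 (actW N n) (Theta hm hD : XN N →+ WW N n) → IsPW x :=
    fun x hx => isPW_of_mem_W1 hm hD hx
  have hk : ∀ x : WW N n, IsPW x → (p ^ m) • lamW x = 0 := fun x hx => by
    rw [← hnp]; exact nsmul_lamW hn hx
  obtain ⟨χ, h1, h2, h3, h4⟩ := exists_good_char N p hpN m A hA (lamW w) (hk w (hP w hw))
    (fun h => hw0 (eq_zero_of_lamW hn (hP w hw) h))
  refine ⟨fun x => χ (lamW x), fun x hx y hy => ?_, fun x => h2 _, h3, fun ρ₀ x hx => ?_⟩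
  · show χ (lamW (x + y)) = _
    rw [lamW_add hn (hP x hx) (hP y hy)]
    exact h1 _ _ (hk x (hP x hx)) (hk y (hP y hy))
  · refine (h4 ρ₀ (lamW x) (hk x (hP x hx))).congr (fun ρ => ?_)
    show _ = (ρ * ρ₀) (χ (lamW (actW N n (ρ * ρ₀)⁻¹ x)))
    rw [lamW_act hn (hP x hx)]

end Fermat.Agent.S32
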