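import Fermat.Agent.S32.RawF
import Fermat.Agent.S32.GoodW
import Fermat.Agent.S31.ES

/-!
# S32/ESF : the Eichler–Shimura interface with good characters
(same data as `S31.esInterface_of_KL`; the extra clause is `S32.goodW`)
-/

set_option autoImplicit false

namespace Fermat.Agent.S32

open Fermat.Agent.S29 Fermat.Agent.S31

theorem esInterfaceF {p : ℕ} {N : ℕ} [NeZero N] {S : Finset ℕ} (hp : p.Prime) (hpN : ¬ p ∣ N)
    (hpS : p ∈ S) (hNS : ∀ q : ℕ, q.Prime → q ∣ N → q ∈ S) : ESInterfaceF N (↑S : Set ℕ) p := by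
  have : Fact p.Prime := ⟨hp⟩
  have hKL : KLAll N := klAll N
  refine esInterfaceF_of_raw hp hNS (XN N) kap kap_injective (fun m => ?_)
  have hm : p ^ m ≠ 0 := pow_ne_zero _ hp.ne_zero
  have hD := desc_holds N (p ^ m) hm
  have hnd : ∀ ℓ : ℕ, ℓ.Prime → ¬ ℓ ∣ N → ℓ ≠ p → ¬ ℓ ∣ N * p ^ m := by
    intro ℓ hℓ hN hne hd
    rcases (Nat.Prime.dvd_mul hℓ).mp hd with h | h
    · exact hN h
    · exact hne ((Nat.prime_dvd_prime_iff_eq hℓ hp).mp (hℓ.dvd_of_dvd_pow h))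
  refine ⟨WW N (p ^ m), inferInstance, actW N (p ^ m), Theta hm hD, nsmul_WW,
    fun c hc => Theta_ker hm hD c hc, fun c => Theta_level hm hD c, ?_, ?_⟩
  · intro ℓ hℓ hℓN hℓS A hA σ hσ g c
    have hℓp : ℓ ≠ p := fun h => hℓS (Finset.mem_coe.mpr (h ▸ hpS))
    rw [kap_T, ← TX_eq hℓ hℓN]
    exact Theta_ES hm hD (k3_holds' N _) (es1_of_KL N _ hKL) ℓ hℓ (hnd ℓ hℓ hℓN hℓp) A hA σ hσ g c
  · intro A hA w hw hw0
    exact goodW hpN m rfl hm hD A hA w hw hw0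

end Fermat.Agent.S32
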