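import Mathlib

/-!
# S32/DUAL : a multiplicatively closed set of characters of a finite abelian group which separates
the points contains all characters   (Mathlib only)
-/

set_option autoImplicit false

namespace Fermat.Agent.S32

section

variable {M Ω : Type*} [AddCommGroup M] [Finite M] [Field Ω] [IsAlgClosed Ω] [CharZero Ω]

theorem dualAux_enough (G : Type*) [CommGroup G] [Finite G] :
    HasEnoughRootsOfUnity Ω (Monoid.exponent G) := by
  have h0 : Monoid.exponent G ≠ 0 := Monoid.exponent_ne_zero_of_finite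
  have : NeZero ((Monoid.exponent G : ℕ) : Ω) := ⟨by exact_mod_cast h0⟩
  infer_instance

/-- a function character as a monoid hom -/
noncomputable def dualAux_hom (ψ : M → Ω) (hψ : ∀ a b, ψ (a + b) = ψ a * ψ b) (hψ0 : ∀ a, ψ a ≠ 0) :
    Multiplicative M →* Ωˣ where
  toFun a := Units.mk0 (ψ (Multiplicative.toAdd a)) (hψ0 _)
  map_one' := by
    apply Units.ext
    show ψ 0 = 1
    have h := hψ 0 0
    rw [add_zero] at h
    exact (mul_eq_left₀ (hψ0 0)).mp h.symm
  map_mul' a b := Units.ext (hψ _ _)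

theorem exists_char_ne_one (x : M) (hx : x ≠ 0) :
    ∃ ψ : M → Ω, (∀ a b, ψ (a + b) = ψ a * ψ b) ∧ (∀ a, ψ a ≠ 0) ∧ ψ x ≠ 1 := by
  have := dualAux_enough (Ω := Ω) (Multiplicative M)
  obtain ⟨φ, hφ⟩ := CommGroup.exists_apply_ne_one_of_hasEnoughRootsOfUnity (Multiplicative M) Ω
    (a := Multiplicative.ofAdd x) (fun h => hx h)
  refine ⟨fun a => (φ (Multiplicative.ofAdd a) : Ωˣ), fun a b => ?_, fun a => Units.ne_zero _, ?_⟩
  · show ((φ (Multiplicative.ofAdd (a + b)) : Ωˣ) : Ω) = _
    rw [ofAdd_add, map_mul, Units.val_mul]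
  · intro h
    exact hφ (Units.ext h)

theorem all_of_separating (P : (M → Ω) → Prop) (hone : P (fun _ => 1))
    (hmul : ∀ χ χ' : M → Ω, P χ → P χ' → P (fun a => χ a * χ' a))
    (hsep : ∀ x : M, x ≠ 0 → ∃ χ : M → Ω, (∀ a b, χ (a + b) = χ a * χ b) ∧ (∀ a, χ a ≠ 0) ∧
      χ x ≠ 1 ∧ P χ)
    (ψ : M → Ω) (hψ : ∀ a b, ψ (a + b) = ψ a * ψ b) (hψ0 : ∀ a, ψ a ≠ 0) : P ψ := by
  classical
  have hen := dualAux_enough (Ω := Ω) (Multiplicative M)
  have hfin : Finite (Multiplicative M →* Ωˣ) :=
    Nat.finite_of_card_ne_zero (by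
      rw [CommGroup.card_monoidHom_of_hasEnoughRootsOfUnity]
      exact Nat.card_pos.ne')
  let Q : (Multiplicative M →* Ωˣ) → Prop := fun φ => P (fun a => (φ (Multiplicative.ofAdd a) : Ωˣ))
  have hPpow : ∀ χ : M → Ω, P χ → ∀ k : ℕ, P (fun a => χ a ^ k) := by
    intro χ hχ k
    induction k with
    | zero =>
      have : (fun a => χ a ^ 0) = fun _ => (1 : Ω) := funext fun a => pow_zero _
      rw [this]; exact hone
    | succ k ih =>
      have : (fun a => χ a ^ (k + 1)) = fun a => χ a ^ k * χ a := funext fun a => pow_succ _ _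
      rw [this]; exact hmul _ _ ih hχ
  let Φ : Subgroup (Multiplicative M →* Ωˣ) :=
    { carrier := {φ | Q φ}
      mul_mem' := fun {a b} ha hb => hmul _ _ ha hb
      one_mem' := hone
      inv_mem' := fun {a} ha => by
        have h1 : (fun x : M => (((a⁻¹ : Multiplicative M →* Ωˣ) (Multiplicative.ofAdd x) : Ωˣ) : Ω)) =
            fun x => ((a (Multiplicative.ofAdd x) : Ωˣ) : Ω) ^ (Nat.card (Multiplicative M) - 1) := by
          funext x
          rw [MonoidHom.inv_apply, ← Units.val_pow_eq_pow_val]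
          congr 1
          apply inv_eq_of_mul_eq_one_right
          rw [← pow_succ', Nat.sub_add_cancel Nat.card_pos, ← map_pow, pow_card_eq_one', map_one]
        show P _
        rw [h1]
        exact hPpow _ ha _ }
  have hbot : (CommGroup.subgroupOrderIsoSubgroupMonoidHom (Multiplicative M) Ω).symm
      (OrderDual.toDual Φ) = ⊥ := by
    rw [eq_bot_iff]
    intro g hg
    rw [CommGroup.mem_subgroupOrderIsoSubgroupMonoidHom_symm_iff] at hg
    rw [Subgroup.mem_bot]
    by_contra hne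
    obtain ⟨χ, h1, h2, h3, h4⟩ := hsep (Multiplicative.toAdd g) (fun h => hne h)
    have h5 := hg (dualAux_hom χ h1 h2) h4
    exact h3 (congrArg Units.val h5)
  have hΦ : OrderDual.toDual Φ =
      CommGroup.subgroupOrderIsoSubgroupMonoidHom (Multiplicative M) Ω ⊥ := by
    rw [← hbot, OrderIso.apply_symm_apply]
  have hmem : dualAux_hom ψ hψ hψ0 ∈ Φ := by
    have h1 : dualAux_hom ψ hψ hψ0 ∈
        (CommGroup.subgroupOrderIsoSubgroupMonoidHom (Multiplicative M) Ω ⊥).ofDual := by
      rw [CommGroup.mem_subgroupOrderIsoSubgroupMonoidHom_iff]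
      intro g hg
      rw [Subgroup.mem_bot.mp hg, map_one]
    rw [← hΦ] at h1
    exact h1
  exact hmem

end

end Fermat.Agent.S32
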