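import Fermat.Agent.S19.G.GC
import Fermat.Agent.S32.Dual

/-!
# S32/TRANSFER : good characters pass from `W` to every module killed by the annihilator of `W` in `ℤ[G_ℚ]`

`E' :=` image of `ℤ[G_ℚ]` in `End W` (finite).  `P Χ := ∀ ρ₀, GCfun A (ρ ↦ (ρ ρ₀) (Χ (e (ρ ρ₀)⁻¹)))` (`e g` = the class of `g`) is closed under products
and separating on `E'` (`Χ = χ ∘ ev_w`, `χ` good on `W`), hence (`all_of_separating`) holds for ALL characters of `E'`, in particular for
`Χ = ψ ∘ (E' → Y, e g ↦ g y)`.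
-/

set_option autoImplicit false

namespace Fermat.Agent.S32

open Fermat.Agent.S19 (Qb GQ GCfun)

/-- the additive map `ℤ[G] → End W` -/
noncomputable def grpRingMap {G W : Type*} [AddCommGroup W] (act : G → AddMonoid.End W) :
    (G →₀ ℤ) →+ AddMonoid.End W :=
  Finsupp.liftAddHom (fun g => zmultiplesHom (AddMonoid.End W) (act g))

theorem grpRingMap_apply {G W : Type*} [AddCommGroup W] (act : G → AddMonoid.End W) (X : G →₀ ℤ) :
    grpRingMap act X = X.sum (fun g k => k • act g) := rfl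

theorem grpRingMap_single {G W : Type*} [AddCommGroup W] (act : G → AddMonoid.End W) (g : G) :
    grpRingMap act (Finsupp.single g 1) = act g := by
  rw [grpRingMap_apply, Finsupp.sum_single_index (by rw [zero_smul]), one_smul]

theorem good_of_ann (A : ValuationSubring Qb) {W Y : Type} [AddCommGroup W] [Finite W]
    [AddCommGroup Y] (actW : GQ →* AddMonoid.End W) (actY : GQ →* AddMonoid.End Y)
    (hann : ∀ X : GQ →₀ ℤ, X.sum (fun g k => k • actW g) = 0 → X.sum (fun g k => k • actY g) = 0)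
    (hsep : ∀ w : W, w ≠ 0 → ∃ χ : W → Qb, (∀ a b, χ (a + b) = χ a * χ b) ∧ (∀ a, χ a ≠ 0) ∧
      χ w ≠ 1 ∧ ∀ (ρ₀ : GQ) (a : W), GCfun A (fun ρ => (ρ * ρ₀) (χ (actW (ρ * ρ₀)⁻¹ a))))
    (ψ : Y → Qb) (hψ : ∀ a b, ψ (a + b) = ψ a * ψ b) (hψ0 : ∀ a, ψ a ≠ 0) (ρ₀ : GQ) (y : Y) :
    GCfun A (fun ρ => (ρ * ρ₀) (ψ (actY (ρ * ρ₀)⁻¹ y))) := by
  classical
  set ΦW := grpRingMap (fun g => actW g) with hΦW
  set ΦY := grpRingMap (fun g => actY g) with hΦY
  have hker : ΦW.rangeRestrict.ker ≤ ΦY.ker := by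
    rw [AddMonoidHom.ker_rangeRestrict]
    intro X hX
    exact hann X hX
  have hfinE : Finite (AddMonoid.End W) :=
    Finite.of_injective (fun f : AddMonoid.End W => (f : W → W)) DFunLike.coe_injective
  have hfin : Finite ΦW.range := inferInstance
  let μ : ΦW.range →+ AddMonoid.End Y :=
    ΦW.rangeRestrict.liftOfSurjective ΦW.rangeRestrict_surjective ⟨ΦY, hker⟩
  have hμ : ∀ X, μ (ΦW.rangeRestrict X) = ΦY X := fun X =>
    AddMonoidHom.liftOfRightInverse_comp_apply _ _ _ ⟨ΦY, hker⟩ X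
  let e : GQ → ΦW.range := fun g => ΦW.rangeRestrict (Finsupp.single g 1)
  have he : ∀ g, ((e g : ΦW.range) : AddMonoid.End W) = actW g := fun g => grpRingMap_single _ g
  have hμe : ∀ g, μ (e g) = actY g := fun g => by rw [hμ]; exact grpRingMap_single _ g
  let P : (ΦW.range → Qb) → Prop := fun Χ => ∀ ρ₀ : GQ, GCfun A (fun ρ => (ρ * ρ₀) (Χ (e (ρ * ρ₀)⁻¹)))
  have hP : P (fun f => ψ (μ f y)) := by
    refine all_of_separating P ?_ ?_ ?_ (fun f => ψ (μ f y)) ?_ ?_
    · intro ρ₀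
      exact GCfun.one.congr (fun ρ => (map_one (ρ * ρ₀)).symm)
    · intro χ χ' h h' ρ₀
      exact ((h ρ₀).mul (h' ρ₀)).congr (fun ρ => (map_mul (ρ * ρ₀) _ _).symm)
    · intro x hx
      have hx' : (x : AddMonoid.End W) ≠ 0 := fun h => hx (Subtype.ext h)
      obtain ⟨w, hw⟩ : ∃ w, (x : AddMonoid.End W) w ≠ 0 := by
        by_contra hcon
        push Not at hcon
        exact hx' (AddMonoidHom.ext hcon)
      obtain ⟨χ, h1, h2, h3, h4⟩ := hsep _ hw
      refine ⟨fun f => χ ((f : AddMonoid.End W) w), fun a b => ?_, fun a => h2 _, h3, fun ρ₀ => ?_⟩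
      · show χ (((a + b : ΦW.range) : AddMonoid.End W) w) = _
        rw [AddSubgroup.coe_add]
        exact h1 _ _
      · refine (h4 ρ₀ w).congr (fun ρ => ?_)
        show _ = (ρ * ρ₀) (χ (((e (ρ * ρ₀)⁻¹ : ΦW.range) : AddMonoid.End W) w))
        rw [he]
    · intro a b
      rw [map_add]
      exact hψ _ _
    · intro a
      exact hψ0 _
  refine (hP ρ₀).congr (fun ρ => ?_)
  show (ρ * ρ₀) (ψ (μ (e (ρ * ρ₀)⁻¹) y)) = _
  rw [hμe]

end Fermat.Agent.S32
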