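import Fermat.Agent.S31.Main
import Fermat.Agent.S19.Defs

/-!
# S32 : the Eichler–Shimura interface with good characters

Same as `S31.ESInterface` plus (ES4): for every valuation ring `A` of `Qb` over `p`, the characters `χ : W → Qbˣ` all of whose twisted orbit functions
`ρ ↦ (ρ ρ₀ · χ)(a)` are `S19.GCfun A` separate the points of `W`.
-/

set_option autoImplicit false

namespace Fermat.Agent.S32

open Fermat.Agent.S29 (Qb GQ)

/-- the Eichler–Shimura interface with good characters -/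
def ESInterfaceF (N : ℕ) [NeZero N] (S : Set ℕ) (p : ℕ) : Prop :=
  ∀ n : ℕ, ∃ (m : ℕ) (W : Type) (_ : AddCommGroup W) (act : GQ →* AddMonoid.End W)
    (a : CuspForm.heckeAlgebra N 2 S →+* AddMonoid.End W),
    Finite W ∧
    (∀ w : W, (p ^ m) • w = 0) ∧
    (∃ L : IntermediateField ℚ Qb, FiniteDimensional ℚ L ∧
      ∀ σ : GQ, (∀ x ∈ L, σ x = x) → act σ = 1) ∧
    (∀ (x : CuspForm.heckeAlgebra N 2 S) (g : GQ), Commute (a x) (act g)) ∧
    (∀ (ℓ : ℕ) (hℓ : ℓ.Prime) (hℓN : ¬ ℓ ∣ N) (hℓS : ℓ ∉ S) (A : ValuationSubring Qb),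
      A.LiesOverPrime ℓ → ∀ τ : GQ, A.IsFrobeniusAt τ ℓ →
        act τ * act τ - a (CuspForm.heckeAlgebra.T hℓ hℓN hℓS) * act τ
          + (ℓ : AddMonoid.End W) = 0) ∧
    (∀ x : CuspForm.heckeAlgebra N 2 S, a x = 0 → ∃ y, x = (p ^ n : ℕ) • y) ∧
    (∀ A : ValuationSubring Qb, A.LiesOverPrime p → ∀ w : W, w ≠ 0 →
      ∃ χ : W → Qb, (∀ x y, χ (x + y) = χ x * χ y) ∧ (∀ x, χ x ≠ 0) ∧ χ w ≠ 1 ∧
        ∀ (ρ₀ : GQ) (x : W), S19.GCfun A (fun ρ => (ρ * ρ₀) (χ (act (ρ * ρ₀)⁻¹ x))))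

end Fermat.Agent.S32
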