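import Fermat.Agent.S32.Key
import Fermat.Agent.S32.Good
import Fermat.Agent.S32.IfES
import Fermat.Agent.S19.A.Main
import Fermat.Agent.Lib.Frobenius
import Fermat.Prelude.Def_GaloisRep_Flat

/-!
# S32/TOP : flatness from the interface `ESInterfaceF` and `S19.flat_of_chars`
-/

set_option autoImplicit false

namespace Fermat.Agent.S32

open Fermat.Agent.S29 (Qb GQ)
open IsLocalRing

theorem topAux_exists_pow_le {T : Type*} [CommRing T] [IsLocalRing T] [IsNoetherianRing T]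
    (I : Ideal T) [Finite (T ⧸ I)] : ∃ n : ℕ, maximalIdeal T ^ n ≤ I := by
  apply Ideal.exists_pow_le_of_le_radical_of_fg _ (IsNoetherian.noetherian _)
  intro x hx
  obtain ⟨i, j, hij, h⟩ :=
    Finite.exists_ne_map_eq_of_infinite (fun k : ℕ => Ideal.Quotient.mk I (x ^ k))
  wlog hlt : i < j generalizing i j
  · exact this j i hij.symm h.symm (lt_of_le_of_ne (not_lt.mp hlt) hij.symm)
  refine ⟨i, ?_⟩
  have h1 : x ^ i - x ^ j ∈ I := Ideal.Quotient.eq.mp h
  have h2 : x ^ i - x ^ j = x ^ i * (1 - x ^ (j - i)) := by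
    rw [mul_sub, mul_one, ← pow_add, Nat.add_sub_cancel' hlt.le]
  have h3 : IsUnit (1 - x ^ (j - i)) := by
    apply IsLocalRing.isUnit_one_sub_self_of_mem_nonunits
    exact (maximalIdeal T).pow_mem_of_mem hx _ (Nat.sub_pos_of_lt hlt)
  rw [h2] at h1
  exact (Ideal.mul_unit_mem_iff_mem I h3).mp h1

theorem topAux_finite_quot {T V : Type*} [CommRing T] [AddCommGroup V] [Module T V]
    [Module.Finite T V] (I : Ideal T) [Finite (T ⧸ I)] :
    Finite (V ⧸ I • (⊤ : Submodule T V)) := by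
  have : Module.Finite (T ⧸ I) (V ⧸ I • (⊤ : Submodule T V)) :=
    Module.Finite.of_restrictScalars_finite T _ _
  exact Module.finite_of_finite (T ⧸ I)

theorem topAux_sum_apply {ι M : Type*} [AddCommGroup M] (s : Finset ι) (f : ι → AddMonoid.End M)
    (x : M) : (∑ i ∈ s, f i) x = ∑ i ∈ s, f i x := by
  classical
  induction s using Finset.induction_on with
  | empty => rfl
  | insert i s hi ih =>
    rw [Finset.sum_insert hi, Finset.sum_insert hi, ← ih]
    rfl

/-- the Galois action on `V / I V` -/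
noncomputable def actLevel {A : Type} [CommRing A] [IsLocalRing A] (ρ : GaloisRepAdic A)
    (I : Ideal A) : GQ →* AddMonoid.End (ρ.V ⧸ I • (⊤ : Submodule A ρ.V)) where
  toFun σ := (ρ.levelAction I σ).toAddMonoidHom
  map_one' := by
    ext y
    obtain ⟨v, rfl⟩ := Submodule.mkQ_surjective _ y
    show Submodule.Quotient.mk (ρ.ρ 1 v) = Submodule.Quotient.mk v
    rw [map_one]; rfl
  map_mul' σ τ := by
    ext y
    obtain ⟨v, rfl⟩ := Submodule.mkQ_surjective _ y
    show Submodule.Quotient.mk (ρ.ρ (σ * τ) v) = Submodule.Quotient.mk (ρ.ρ σ (ρ.ρ τ v))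
    rw [map_mul]; rfl

theorem actLevel_mk {A : Type} [CommRing A] [IsLocalRing A] (ρ : GaloisRepAdic A)
    (I : Ideal A) (σ : GQ) (v : ρ.V) :
    actLevel ρ I σ (Submodule.Quotient.mk v) = Submodule.Quotient.mk (ρ.ρ σ v) := rfl

variable {p : ℕ} {N : ℕ} [NeZero N] {S : Finset ℕ}
  {𝒪 : Type} [CommRing 𝒪] [IsDomain 𝒪] [IsDiscreteValuationRing 𝒪]
  [IsAdicComplete (IsLocalRing.maximalIdeal 𝒪) 𝒪]
  {θ : CuspForm.heckeAlgebra N 2 (↑S : Set ℕ) →+* IsLocalRing.ResidueField 𝒪}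
  {T : Type} [CommRing T] [IsLocalRing T] [IsNoetherianRing T]
  [IsAdicComplete (IsLocalRing.maximalIdeal T) T] [Algebra 𝒪 T] [IsLocalHom (algebraMap 𝒪 T)]
  [Module.Finite 𝒪 T] [Module.Free 𝒪 T]

theorem isFlatAt_of_ESF [Finite (IsLocalRing.ResidueField 𝒪)]
    (hp : p.Prime) (hp𝒪 : (p : 𝒪) ∈ IsLocalRing.maximalIdeal 𝒪)
    (hpS : p ∈ S) (hNS : ∀ q : ℕ, q.Prime → q ∣ N → q ∈ S)
    (hES : ESInterfaceF N (↑S : Set ℕ) p)
    (H : CuspForm.HeckeGaloisRepDatum N (↑S : Set ℕ) 𝒪 θ T) :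
    H.ρ.IsFlatAt p := by
  refine ⟨?_, fun I hI => ?_⟩
  · exact Finite.of_surjective (IsLocalRing.ResidueField.map (algebraMap 𝒪 T)) (fun x => by
      obtain ⟨o, ho⟩ := H.residue_surjective x
      exact ⟨IsLocalRing.residue 𝒪 o, ho⟩)
  · have := hI
    have : Fact p.Prime := ⟨hp⟩
    obtain ⟨n, hn⟩ := topAux_exists_pow_le I
    obtain ⟨m, W, _, act, a, hfin, hkill, hlev, hcomm, ES1, ES3, ES4⟩ := hES n
    obtain ⟨A, hA⟩ := Fermat.Agent.Frob.exists_liesOverPrime hp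
    have := hfin
    have : Finite (H.ρ.V ⧸ I • (⊤ : Submodule T H.ρ.V)) := topAux_finite_quot I
    let : DistribMulAction GQ (H.ρ.V ⧸ I • (⊤ : Submodule T H.ρ.V)) :=
      DistribMulAction.compHom _ (actLevel H.ρ I)
    have hle : (maximalIdeal T ^ n) • (⊤ : Submodule T H.ρ.V) ≤ I • (⊤ : Submodule T H.ρ.V) :=
      Submodule.smul_mono hn le_rfl
    have hann : ∀ X : GQ →₀ ℤ, X.sum (fun g k => k • act g) = 0 →
        X.sum (fun g k => k • actLevel H.ρ I g) = 0 := by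
      intro X hX
      ext y
      obtain ⟨v, rfl⟩ := Submodule.mkQ_surjective _ y
      have h1 := hle (ann_of_ES hp hp𝒪 hpS hNS H n m act a hkill hlev hcomm ES1 ES3 X hX v)
      have h2 : (X.sum (fun g k => k • actLevel H.ρ I g))
          (Submodule.Quotient.mk v : H.ρ.V ⧸ I • (⊤ : Submodule T H.ρ.V)) =
          Submodule.Quotient.mk (X.sum (fun g k => k • H.ρ.ρ g v)) := by
        unfold Finsupp.sum
        rw [topAux_sum_apply]
        have : (Submodule.Quotient.mk (∑ g ∈ X.support, X g • H.ρ.ρ g v) :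
            H.ρ.V ⧸ I • (⊤ : Submodule T H.ρ.V)) =
            ∑ g ∈ X.support, X g • Submodule.Quotient.mk (H.ρ.ρ g v) := by
          rw [← Submodule.mkQ_apply, map_sum]
          exact Finset.sum_congr rfl (fun g _ => map_zsmul _ _ _)
        rw [this]
        rfl
      show (X.sum (fun g k => k • actLevel H.ρ I g))
          (Submodule.Quotient.mk v : H.ρ.V ⧸ I • (⊤ : Submodule T H.ρ.V)) = 0
      rw [h2]
      exact (Submodule.Quotient.mk_eq_zero _).mpr h1
    refine S19.flat_of_chars p (H.ρ.V ⧸ I • (⊤ : Submodule T H.ρ.V)) ?_ A hA ?_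
    · intro y
      obtain ⟨L, hLfin, hL⟩ := H.ρ.isAdicContinuous n
      refine ⟨L, hLfin, fun σ hσ => ?_⟩
      obtain ⟨v, rfl⟩ := Submodule.mkQ_surjective _ y
      show (Submodule.Quotient.mk (H.ρ.ρ σ v) : H.ρ.V ⧸ I • (⊤ : Submodule T H.ρ.V)) =
        Submodule.Quotient.mk v
      exact (Submodule.Quotient.eq _).mpr (hle (hL σ hσ v))
    · intro y hy
      obtain ⟨ψ, h1, h2, h3⟩ := exists_char_ne_one (Ω := Qb) y hy
      exact ⟨ψ, h1, h2, h3, fun ρ₀ x =>
        good_of_ann A act (actLevel H.ρ I) hann (ES4 A hA) ψ h1 h2 ρ₀ x⟩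

end Fermat.Agent.S32
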