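import Mathlib

/-!
# S32/KEY-ALG : the abstract key lemma   (Mathlib only)

`α : G → Eˣ` (the Galois action on `W`, `E = End W`), `a : 𝕋 → E` commuting with `α`, `a (z g) = α g + c g α g⁻¹`
(`c` central, multiplicative), `π : 𝕋 → T` with `a x = 0 → π x ∈ J`, `r : G → M₂(T)` multiplicative, spanning `M₂(T)`,
`tr r g ≡ π (z g)` mod `J ≤ 𝔪_T`.   Then  `∑ k_g α g = 0  ⟹  ∑ k_g r g ≡ 0` mod `J`.

Proof.  `t y = ∑ k_g z (g y)`: `a (t y) = c y α y⁻¹ S`, `S = ∑ k_g c g α g⁻¹ = a (t 1)`.  As `a (t y)` and `S` commute with all `α h`: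
`[α h, α y] S = 0`.  Choose `g g' w` with `tr ((r g r g' - r g' r g) r w)` a unit, `τ = z (g g' w) - z (g' g w)`: `a τ S = 0`, `π τ` is a unit,
`a (τ t y) = 0`, so `π (t y) ∈ J`, i.e. `tr (R r y) ∈ J` for all `y`, `R = ∑ k_g r g`; by the span hypothesis all entries of `R` are in `J`.
-/

set_option autoImplicit false

namespace Fermat.Agent.S32

open IsLocalRing

section

variable {G 𝕋 E T : Type*} [Group G] [CommRing 𝕋] [Ring E] [CommRing T]

/-- matrices with entries in `J` -/
def entriesIn (J : Ideal T) : Submodule T (Matrix (Fin 2) (Fin 2) T) where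
  carrier := {M | ∀ i j, M i j ∈ J}
  add_mem' := fun {a b} ha hb i j => by rw [Matrix.add_apply]; exact J.add_mem (ha i j) (hb i j)
  zero_mem' := fun i j => J.zero_mem
  smul_mem' := fun c a ha i j => by
    rw [Matrix.smul_apply, smul_eq_mul]; exact J.mul_mem_left c (ha i j)

theorem keyAux_trace_mul_single (X : Matrix (Fin 2) (Fin 2) T) (i j : Fin 2) :
    (X * Matrix.single i j (1 : T)).trace = X j i := by
  fin_cases i <;> fin_cases j <;>
    simp [Matrix.trace_fin_two, Matrix.mul_apply, Matrix.single]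

omit [Group G] in
/-- if `tr (X r y) ∈ J` for all `y` then the entries of `X` are in `J` -/
theorem keyAux_entries (J : Ideal T) (r : G → Matrix (Fin 2) (Fin 2) T)
    (hspan : Submodule.span T (Set.range r) = ⊤) (X : Matrix (Fin 2) (Fin 2) T)
    (h : ∀ y, (X * r y).trace ∈ J) : X ∈ entriesIn J := by
  have key : ∀ Y ∈ Submodule.span T (Set.range r), (X * Y).trace ∈ J := by
    intro Y hY
    induction hY using Submodule.span_induction with
    | mem Y hY => obtain ⟨g, rfl⟩ := hY; exact h g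
    | zero => simp
    | add Y₁ Y₂ _ _ h₁ h₂ => rw [Matrix.mul_add, Matrix.trace_add]; exact J.add_mem h₁ h₂
    | smul a Y _ h => rw [Matrix.mul_smul, Matrix.trace_smul, smul_eq_mul]; exact J.mul_mem_left a h
  intro i j
  rw [← keyAux_trace_mul_single X j i]
  exact key _ (hspan ▸ Submodule.mem_top)

omit [Group G] in
theorem keyAux_exists_unit [IsLocalRing T] (r : G → Matrix (Fin 2) (Fin 2) T)
    (hspan : Submodule.span T (Set.range r) = ⊤) :
    ∃ g g' w, IsUnit ((r g * r g' - r g' * r g) * r w).trace := by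
  by_contra hcon
  push Not at hcon
  have htop : ∀ Y : Matrix (Fin 2) (Fin 2) T, Y ∈ Submodule.span T (Set.range r) := fun Y => by
    rw [hspan]; trivial
  set Jm := entriesIn (maximalIdeal T) with hJm
  have h1 : ∀ g g', r g * r g' - r g' * r g ∈ Jm := fun g g' =>
    keyAux_entries _ r hspan _ (fun w => (mem_maximalIdeal _).mpr (hcon g g' w))
  have h2 : ∀ (A : Matrix (Fin 2) (Fin 2) T) g, A * r g - r g * A ∈ Jm := by
    intro A g
    induction htop A using Submodule.span_induction with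
    | mem y hy => obtain ⟨w, rfl⟩ := hy; exact h1 w g
    | zero => simp
    | add a b _ _ ha hb =>
      have : (a + b) * r g - r g * (a + b) = (a * r g - r g * a) + (b * r g - r g * b) := by
        rw [add_mul, mul_add]; abel
      rw [this]; exact Jm.add_mem ha hb
    | smul c a _ ha =>
      have : (c • a) * r g - r g * (c • a) = c • (a * r g - r g * a) := by
        rw [Matrix.smul_mul, Matrix.mul_smul, smul_sub]
      rw [this]; exact Jm.smul_mem c ha
  have h3 : ∀ A B : Matrix (Fin 2) (Fin 2) T, A * B - B * A ∈ Jm := by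
    intro A B
    induction htop B using Submodule.span_induction with
    | mem y hy => obtain ⟨w, rfl⟩ := hy; exact h2 A w
    | zero => simp
    | add a b _ _ ha hb =>
      have : A * (a + b) - (a + b) * A = (A * a - a * A) + (A * b - b * A) := by
        rw [add_mul, mul_add]; abel
      rw [this]; exact Jm.add_mem ha hb
    | smul c a _ ha =>
      have : A * (c • a) - (c • a) * A = c • (A * a - a * A) := by
        rw [Matrix.smul_mul, Matrix.mul_smul, smul_sub]
      rw [this]; exact Jm.smul_mem c ha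
  have h4 := h3 !![0, 1; 0, 0] !![0, 0; 1, 0] 0 0
  simp at h4

theorem key_alg [IsLocalRing T] (α : G →* E) (a : 𝕋 →+* E) (hcomm : ∀ x g, Commute (a x) (α g))
    (z : G → 𝕋) (c : G → E) (hcc : ∀ g (e : E), Commute (c g) e)
    (hcm : ∀ g h, c (g * h) = c g * c h) (hc1 : c 1 = 1)
    (hz : ∀ g, a (z g) = α g + c g * α g⁻¹)
    (J : Ideal T) (hJ : J ≤ maximalIdeal T) (π : 𝕋 →+* T) (hker : ∀ x, a x = 0 → π x ∈ J)
    (r : G → Matrix (Fin 2) (Fin 2) T) (hrm : ∀ g h, r (g * h) = r g * r h)
    (htr : ∀ g, (r g).trace - π (z g) ∈ J)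
    (hspan : Submodule.span T (Set.range r) = ⊤)
    (s : Finset G) (k : G → ℤ) (hX : ∑ g ∈ s, k g • α g = 0) :
    ∑ g ∈ s, k g • r g ∈ entriesIn J := by
  set S : E := ∑ g ∈ s, k g • (c g * α g⁻¹) with hSdef
  set t : G → 𝕋 := fun y => ∑ g ∈ s, k g • z (g * y) with htdef
  have hat : ∀ y, a (t y) = c y * α y⁻¹ * S := by
    intro y
    have e1 : ∀ g, k g • (α g * α y + c g * c y * (α y⁻¹ * α g⁻¹)) =
        (k g • α g) * α y + c y * α y⁻¹ * (k g • (c g * α g⁻¹)) := by
      intro g
      rw [smul_add, smul_mul_assoc, mul_smul_comm]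
      congr 2
      calc c g * c y * (α y⁻¹ * α g⁻¹) = (c g * (c y * α y⁻¹)) * α g⁻¹ := by simp only [mul_assoc]
        _ = ((c y * α y⁻¹) * c g) * α g⁻¹ := by rw [(hcc g _).eq]
        _ = _ := by simp only [mul_assoc]
    simp only [htdef, map_sum, map_zsmul, hz, hcm, map_mul, mul_inv_rev]
    rw [Finset.sum_congr rfl (fun g _ => e1 g), Finset.sum_add_distrib, ← Finset.sum_mul, hX,
      zero_mul, zero_add, ← Finset.mul_sum]
  have hS : S = a (t 1) := by rw [hat, hc1, inv_one, map_one, one_mul, one_mul]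
  have hSα : ∀ g, S * α g = α g * S := fun g => by rw [hS]; exact (hcomm _ g).eq
  have hcu : ∀ y, c y⁻¹ * c y = 1 := by intro y; rw [← hcm, inv_mul_cancel, hc1]
  have h1 : ∀ y, α y⁻¹ * S = c y⁻¹ * a (t y) := by
    intro y; rw [hat, ← mul_assoc, ← mul_assoc, hcu, one_mul]
  have h2 : ∀ h y, α h * (α y⁻¹ * S) = (α y⁻¹ * S) * α h := by
    intro h y
    rw [h1, mul_assoc, (hcomm _ h).eq, ← mul_assoc, ← mul_assoc, (hcc y⁻¹ (α h)).eq]
  have h3 : ∀ h y, α h * α y * S = α y * α h * S := by
    intro h y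
    have := h2 h y⁻¹
    rw [inv_inv] at this
    rw [mul_assoc, this, mul_assoc, hSα, mul_assoc]
  obtain ⟨g, g', w, hu⟩ := keyAux_exists_unit r hspan
  set τ : 𝕋 := z (g * g' * w) - z (g' * g * w) with hτ
  have haτS : a τ * S = 0 := by
    have e1 : α g * α g' * α w * S = α g' * α g * α w * S := by
      rw [mul_assoc _ (α w) S, ← hSα w, ← mul_assoc, h3 g g', mul_assoc _ S, hSα w, ← mul_assoc]
    have e2 : α g'⁻¹ * α g⁻¹ * S = α g⁻¹ * α g'⁻¹ * S := h3 _ _
    have e3 : c g' * c g = c g * c g' := (hcc g' _).eq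
    rw [hτ, map_sub, hz, hz]
    simp only [hcm, map_mul, mul_inv_rev]
    rw [e3, sub_mul, add_mul, add_mul, e1]
    have e4 : c g * c g' * c w * (α w⁻¹ * (α g'⁻¹ * α g⁻¹)) * S =
        c g * c g' * c w * (α w⁻¹ * (α g⁻¹ * α g'⁻¹)) * S := by
      rw [mul_assoc _ _ S, mul_assoc (α w⁻¹) _ S, e2]
      simp only [mul_assoc]
    rw [e4, sub_self]
  have hπu : IsUnit (π τ) := by
    have e1 : ((r g * r g' - r g' * r g) * r w).trace - π τ ∈ maximalIdeal T := by
      have e2 : ((r g * r g' - r g' * r g) * r w).trace - π τ =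
          ((r (g * g' * w)).trace - π (z (g * g' * w))) -
            ((r (g' * g * w)).trace - π (z (g' * g * w))) := by
        rw [hτ, map_sub, hrm, hrm, hrm, hrm, sub_mul, Matrix.trace_sub]
        ring
      rw [e2]
      exact hJ (J.sub_mem (htr _) (htr _))
    by_contra hn
    have e3 : π τ ∈ maximalIdeal T := (mem_maximalIdeal _).mpr hn
    have e4 := (maximalIdeal T).add_mem e1 e3
    rw [sub_add_cancel] at e4
    exact (mem_maximalIdeal _).mp e4 hu
  have hty : ∀ y, π (t y) ∈ J := by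
    intro y
    have e1 : a (τ * t y) = 0 := by
      rw [map_mul, hat, ← mul_assoc, ← mul_assoc, ← (hcc y (a τ)).eq, mul_assoc (c y),
        (hcomm τ y⁻¹).eq, mul_assoc, mul_assoc, haτS, mul_zero, mul_zero]
    have e2 := hker _ e1
    rw [map_mul] at e2
    exact (Ideal.unit_mul_mem_iff_mem J hπu).mp e2
  apply keyAux_entries J r hspan
  intro y
  have e : ((∑ g ∈ s, k g • r g) * r y).trace - π (t y) =
      ∑ g ∈ s, k g • ((r (g * y)).trace - π (z (g * y))) := by
    simp only [htdef, Finset.sum_mul, Matrix.trace_sum, hrm, smul_sub, Finset.sum_sub_distrib,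
      map_sum, map_zsmul, Matrix.smul_mul, Matrix.trace_smul]
  have e' : ((∑ g ∈ s, k g • r g) * r y).trace - π (t y) ∈ J := by
    rw [e]
    exact J.sum_mem (fun g _ => by
      rw [zsmul_eq_mul]; exact J.mul_mem_left _ (htr _))
  have := J.add_mem e' (hty y)
  rwa [sub_add_cancel] at this

end

end Fermat.Agent.S32
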