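import Fermat.Agent.S33.Alg.ZData
import Fermat.Agent.S32.KeyAlg

/-!
# S32/KEY : an element of `ℤ[G_ℚ]` which kills the Eichler–Shimura module `W` (level `n`) kills `V / 𝔪_T ^ n V`

Instance of `key_alg` : `E = End W`, `z c` from `S33.Alg.exists_zdata`, `r` = the matrices of `ρ` in a basis, `J = 𝔪_T ^ n`.
-/

set_option autoImplicit false

namespace Fermat.Agent.S32

open Fermat.Agent.S29 (Qb GQ)
open Fermat.Agent.S31
open IsLocalRing

theorem keyAux_mem_smul_top {T V : Type*} [CommRing T] [AddCommGroup V] [Module T V]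
    (b : Module.Basis (Fin 2) T V) (f : V →ₗ[T] V) (J : Ideal T)
    (h : LinearMap.toMatrix b b f ∈ entriesIn J) (v : V) : f v ∈ J • (⊤ : Submodule T V) := by
  rw [← b.sum_repr (f v)]
  apply Submodule.sum_mem
  intro i _
  apply Submodule.smul_mem_smul _ Submodule.mem_top
  rw [← LinearMap.toMatrix_mulVec_repr b b f v, Matrix.mulVec, dotProduct]
  exact J.sum_mem (fun j _ => J.mul_mem_right _ (h i j))

variable {p : ℕ} {N : ℕ} [NeZero N] {S : Finset ℕ}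
  {𝒪 : Type} [CommRing 𝒪] [IsDomain 𝒪] [IsDiscreteValuationRing 𝒪]
  [IsAdicComplete (IsLocalRing.maximalIdeal 𝒪) 𝒪]
  {θ : CuspForm.heckeAlgebra N 2 (↑S : Set ℕ) →+* IsLocalRing.ResidueField 𝒪}
  {T : Type} [CommRing T] [IsLocalRing T] [IsNoetherianRing T]
  [IsAdicComplete (IsLocalRing.maximalIdeal T) T] [Algebra 𝒪 T] [IsLocalHom (algebraMap 𝒪 T)]
  [Module.Finite 𝒪 T] [Module.Free 𝒪 T]

theorem ann_of_ES (hp : p.Prime) (hp𝒪 : (p : 𝒪) ∈ IsLocalRing.maximalIdeal 𝒪) (hpS : p ∈ S)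
    (hNS : ∀ q : ℕ, q.Prime → q ∣ N → q ∈ S)
    (H : CuspForm.HeckeGaloisRepDatum N (↑S : Set ℕ) 𝒪 θ T) (n m : ℕ)
    {W : Type} [AddCommGroup W] (act : GQ →* AddMonoid.End W)
    (a : CuspForm.heckeAlgebra N 2 (↑S : Set ℕ) →+* AddMonoid.End W)
    (hkill : ∀ w : W, (p ^ m) • w = 0)
    (hlev : ∃ L : IntermediateField ℚ Qb, FiniteDimensional ℚ L ∧
      ∀ σ : GQ, (∀ x ∈ L, σ x = x) → act σ = 1)
    (hcomm : ∀ (x : CuspForm.heckeAlgebra N 2 (↑S : Set ℕ)) (g : GQ), Commute (a x) (act g))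
    (ES1 : ∀ (ℓ : ℕ) (hℓ : ℓ.Prime) (hℓN : ¬ ℓ ∣ N) (hℓS : ℓ ∉ (↑S : Set ℕ)) (A : ValuationSubring Qb),
      A.LiesOverPrime ℓ → ∀ τ : GQ, A.IsFrobeniusAt τ ℓ →
        act τ * act τ - a (CuspForm.heckeAlgebra.T hℓ hℓN hℓS) * act τ
          + (ℓ : AddMonoid.End W) = 0)
    (ES3 : ∀ x : CuspForm.heckeAlgebra N 2 (↑S : Set ℕ), a x = 0 → ∃ y, x = (p ^ n : ℕ) • y)
    (X : GQ →₀ ℤ) (hX : X.sum (fun g k => k • act g) = 0) (v : H.ρ.V) :
    X.sum (fun g k => k • H.ρ.ρ g v) ∈ (maximalIdeal T ^ n) • (⊤ : Submodule T H.ρ.V) := by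
  rcases Nat.eq_zero_or_pos n with rfl | hn
  · rw [pow_zero, Ideal.one_eq_top, Submodule.top_smul]
    trivial
  obtain ⟨z, c, hz1, hz2, -, hc1, hc2, -⟩ := S33.Alg.exists_zdata hp hpS hNS H n m act a hlev ES1
  obtain ⟨r, hr⟩ := Fermat.Agent.S53.exists_hasMatrix H.ρ
  have hspan := span_eq_top_local H.ρ H.residual_absIrr r hr
  have hmul := Fermat.Agent.S53.HasMatrix.map_mul hr
  obtain ⟨b, hb⟩ := hr
  have hpT : (p : T) ∈ maximalIdeal T := by
    have h1 : algebraMap 𝒪 T (p : 𝒪) ∈ maximalIdeal T := map_nonunit (algebraMap 𝒪 T) _ hp𝒪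
    rwa [map_natCast] at h1
  have hmain := key_alg (T := T) act a hcomm z (fun g => ((c g : ℕ) : AddMonoid.End W))
    (fun g e => Nat.cast_commute _ _)
    (fun g h => by
      rw [← Nat.cast_mul]
      apply natCast_end_eq (p ^ m) hkill
      rw [hc1, Nat.cast_mul])
    (by
      rw [← Nat.cast_one]
      apply natCast_end_eq (p ^ m) hkill
      rw [hc2, Nat.cast_one])
    hz2 (maximalIdeal T ^ n) (Ideal.pow_le_self hn.ne') H.π
    (fun x hx => by
      obtain ⟨y, hy⟩ := ES3 x hx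
      rw [hy, map_nsmul, nsmul_eq_mul, Nat.cast_pow]
      exact Ideal.mul_mem_right _ _ (Ideal.pow_mem_pow hpT n))
    r hmul
    (fun g => by
      have := hz1 g
      unfold GaloisRepAdic.trace at this
      rwa [LinearMap.trace_eq_matrix_trace T b, hb] at this)
    hspan X.support (fun g => X g) hX
  have h2 : LinearMap.toMatrix b b (∑ g ∈ X.support, X g • H.ρ.ρ g) = ∑ g ∈ X.support, X g • r g := by
    rw [map_sum]
    exact Finset.sum_congr rfl (fun g _ => by rw [map_zsmul, hb])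
  rw [← h2] at hmain
  have h3 := keyAux_mem_smul_top b _ _ hmain v
  rw [LinearMap.sum_apply] at h3
  exact h3

end Fermat.Agent.S32
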