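import Fermat.Agent.S19.ND.Rep
import Fermat.Agent.S29.ESRel

/-!
# S32/LAM : Kummer elements and torsion classes (general function field, `K` alg. closed of char. 0)

`lam h n u = cls (div u / n)` for `u` with `n ∣ div u` (`PDiv K F n u`).  Additive, killed by `n`, kernel = `n`-th powers, semilinear-equivariant.
-/

set_option autoImplicit false
set_option linter.unusedSectionVars false

noncomputable section

namespace Fermat.Agent.S32

open AlgebraicCurve Fermat.Agent.S37 Fermat.Agent.S27 Fermat.Agent.S19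
open Fermat.Agent.S29 (PDiv)

variable {K F : Type*} [Field K] [Field F] [Algebra K F] [IsAlgClosed K] [CharZero K]

theorem exists_divN (h : IsFF K F) {n : ℕ} {u : F} (hu : PDiv K F n u) :
    ∃ D : Divisor K F, ∀ P : Place K F, P.ord u = n * D P := by
  have := h.hasPrincipalDivisors
  obtain ⟨E, hE, -⟩ := HasPrincipalDivisors.exists_divisor (K := K) u hu.1
  refine ⟨E.mapRange (fun k => k / (n : ℤ)) (by simp), fun P => ?_⟩
  rw [Finsupp.mapRange_apply, hE]
  exact (Int.mul_ediv_cancel' (hu.2 P)).symm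

open Classical in
/-- the class of `div u / n` -/
def lam (h : IsFF K F) (n : ℕ) (u : F) : Pic0 K F :=
  if hu : PDiv K F n u then cls (exists_divN h hu).choose else 0

theorem lam_eq (h : IsFF K F) {n : ℕ} (hn : 0 < n) {u : F} (hu : PDiv K F n u) (D : Divisor K F)
    (hD : ∀ P : Place K F, P.ord u = n * D P) : lam h n u = cls D := by
  rw [lam, dif_pos hu]
  congr 1
  ext P
  have h1 := (exists_divN h hu).choose_spec P
  rw [hD P] at h1
  have hn' : (n : ℤ) ≠ 0 := by exact_mod_cast hn.ne'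
  exact (mul_left_cancel₀ hn' h1).symm

theorem lamAux_cls_add {D E : Divisor K F} (hD : Divisor.degree D = 0) (hE : Divisor.degree E = 0) :
    cls (D + E) = cls D + cls E := by
  have hD' : D ∈ Divisor.degZero (K := K) (F := F) := hD
  have hE' : E ∈ Divisor.degZero (K := K) (F := F) := hE
  rw [nd_cls_of_mem hD', nd_cls_of_mem hE', nd_cls_of_mem (add_mem hD' hE')]
  rfl

theorem lam_mul (h : IsFF K F) {n : ℕ} (hn : 0 < n) {u v : F} (hu : PDiv K F n u)
    (hv : PDiv K F n v) : lam h n (u * v) = lam h n u + lam h n v := by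
  obtain ⟨D, hD⟩ := exists_divN h hu
  obtain ⟨E, hE⟩ := exists_divN h hv
  rw [lam_eq h hn hu D hD, lam_eq h hn hv E hE, lam_eq h hn (hu.mul hv) (D + E) (fun P => by
    rw [P.ord_mul hu.1 hv.1, hD, hE, Finsupp.add_apply, mul_add])]
  exact lamAux_cls_add (nd_degree_eq_zero h hn hu.1 hD) (nd_degree_eq_zero h hn hv.1 hE)

theorem pdiv_pow_self {n : ℕ} {r : F} (hr : r ≠ 0) : PDiv K F n (r ^ n) :=
  ⟨pow_ne_zero _ hr, fun P => by rw [nd_ord_pow]; exact Dvd.intro _ rfl⟩

theorem lam_pow_self (h : IsFF K F) {n : ℕ} (hn : 0 < n) {r : F} (hr : r ≠ 0) :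
    lam h n (r ^ n) = 0 := by
  have := h.hasPrincipalDivisors
  obtain ⟨E, hE, hE0⟩ := HasPrincipalDivisors.exists_divisor (K := K) r hr
  rw [lam_eq h hn (pdiv_pow_self hr) E (fun P => by rw [nd_ord_pow, hE])]
  have hE' : E ∈ Divisor.degZero (K := K) (F := F) := hE0
  rw [nd_cls_of_mem hE', nd_mk_eq_zero_iff]
  exact ⟨r, hr, hE⟩

theorem nsmul_lam (h : IsFF K F) {n : ℕ} (hn : 0 < n) {u : F} (hu : PDiv K F n u) :
    n • lam h n u = 0 := by
  obtain ⟨D, hD⟩ := exists_divN h hu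
  rw [lam_eq h hn hu D hD]
  exact nd_nsmul_cls_eq_zero hu.1 hD

theorem exists_pow_of_lam_eq_zero (h : IsFF K F) {n : ℕ} (hn : 0 < n) {u : F} (hu : PDiv K F n u)
    (h0 : lam h n u = 0) : ∃ r : F, u = r ^ n := by
  obtain ⟨D, hD⟩ := exists_divN h hu
  rw [lam_eq h hn hu D hD] at h0
  have hD' : D ∈ Divisor.degZero (K := K) (F := F) := nd_degree_eq_zero h hn hu.1 hD
  rw [nd_cls_of_mem hD', nd_mk_eq_zero_iff] at h0
  obtain ⟨f, hf, hDf⟩ := h0
  have hfn : f ^ n ≠ 0 := pow_ne_zero _ hf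
  have hord : ∀ P : Place K F, P.ord (u / f ^ n) = 0 := by
    intro P
    rw [div_eq_mul_inv, P.ord_mul hu.1 (inv_ne_zero hfn), P.ord_inv, nd_ord_pow, hD, ← hDf P]
    simp
  obtain ⟨c, hc⟩ := exists_eq_algebraMap h (y := u / f ^ n) (fun P => reg_iff.2 (hord P).ge)
  obtain ⟨d, hd⟩ := IsAlgClosed.exists_pow_nat_eq c hn
  refine ⟨algebraMap K F d * f, ?_⟩
  rw [mul_pow, ← map_pow, hd, ← hc, div_mul_cancel₀ _ hfn]

theorem lamAux_cls_smul (g : SemilinearAut K F) {D : Divisor K F} (hD : Divisor.degree D = 0) :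
    cls (g • D) = g • cls D := by
  have hD' : D ∈ Divisor.degZero (K := K) (F := F) := hD
  rw [nd_cls_of_mem hD', nd_cls_of_mem (SemilinearAut.smul_mem_degZero g hD'),
    SemilinearAut.pic0_smul_mk]
  rfl

theorem pdiv_smul (g : SemilinearAut K F) {n : ℕ} {u : F} (hu : PDiv K F n u) :
    PDiv K F n (g • u) := by
  refine ⟨by simpa using hu.1, fun v => ?_⟩
  have h := SemilinearAut.ord_smul g (g⁻¹ • v) u
  rw [smul_inv_smul] at h
  rw [h]
  exact hu.2 _

theorem lam_smul (h : IsFF K F) {n : ℕ} (hn : 0 < n) (g : SemilinearAut K F) {u : F}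
    (hu : PDiv K F n u) : lam h n (g • u) = g • lam h n u := by
  obtain ⟨D, hD⟩ := exists_divN h hu
  rw [lam_eq h hn hu D hD, lam_eq h hn (pdiv_smul g hu) (g • D) (fun P => by
    have h1 := SemilinearAut.ord_smul g (g⁻¹ • P) u
    rw [smul_inv_smul] at h1
    rw [h1, hD, SemilinearAut.divisor_smul_apply])]
  exact lamAux_cls_smul g (nd_degree_eq_zero h hn hu.1 hD)

end Fermat.Agent.S32
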